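/-
C1 nodal core, instantiation, block K (helper284): abstract part of the comparison of the orders of
`x'(τ)` and `x'(qτ)` for `x' = j, h₂, h₃`.

* `Shape v a P D` : `P` behaves at the place `v` like a polynomial in `a` of degree `D` with constant
  term `1`;
* `IsHaupt r v a J1 Jr` : `a` behaves at `v` like the Hauptmodul `h_r` with respect to `J1 = j(τ)`,
  `Jr = j(rτ)`;
* `arith_j`, `arith_haupt` : the two arithmetic lemmas.
-/
import Fermat.Agent.Lib.Hauptmodul.Ram2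

set_option autoImplicit false

namespace Fermat.Agent.S34.Nodal.Inst.Ord

open AlgebraicCurve Fermat.Agent.S24.FF Fermat.Agent.Lib.Hauptmodul

section Places

variable {K F : Type*} [Field K] [Field F] [Algebra K F]

/-- `P` behaves like a polynomial of degree `D` in `a` with constant term `1`. -/
structure Shape (v : Place K F) (a P : F) (D : ℕ) : Prop where
  pos : 0 < v.ord a → v.ord P = 0 ∧ P ≠ 0
  neg : v.ord a < 0 → v.ord P = D * v.ord a ∧ P ≠ 0
  zero : v.ord a = 0 → 0 ≤ v.ord P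

theorem Shape.mul {v : Place K F} {a P P' : F} {D D' : ℕ} (h : Shape v a P D)
    (h' : Shape v a P' D') : Shape v a (P * P') (D + D') where
  pos ha := by
    obtain ⟨h1, h2⟩ := h.pos ha
    obtain ⟨h3, h4⟩ := h'.pos ha
    exact ⟨by rw [v.ord_mul h2 h4, h1, h3, add_zero], mul_ne_zero h2 h4⟩
  neg ha := by
    obtain ⟨h1, h2⟩ := h.neg ha
    obtain ⟨h3, h4⟩ := h'.neg ha
    exact ⟨by rw [v.ord_mul h2 h4, h1, h3]; push_cast; ring, mul_ne_zero h2 h4⟩
  zero ha := by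
    rcases eq_or_ne P 0 with rfl | h2
    · rw [zero_mul, v.ord_zero]
    rcases eq_or_ne P' 0 with rfl | h4
    · rw [mul_zero, v.ord_zero]
    rw [v.ord_mul h2 h4]
    exact add_nonneg (h.zero ha) (h'.zero ha)

theorem Shape.pow {v : Place K F} {a P : F} {D : ℕ} (h : Shape v a P D) (n : ℕ) :
    Shape v a (P ^ n) (n * D) := by
  induction n with
  | zero =>
    simp only [pow_zero, zero_mul]
    exact ⟨fun _ => ⟨v.ord_one, one_ne_zero⟩, fun _ => ⟨by rw [v.ord_one]; simp, one_ne_zero⟩,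
      fun _ => by rw [v.ord_one]⟩
  | succ n ih =>
    rw [pow_succ, Nat.succ_mul]
    exact ih.mul h

theorem shape_lin [CharZero K] (v : Place K F) (a : F) {c : ℕ} (hc : c ≠ 0) :
    Shape v a (1 + (c : F) * a) 1 where
  pos ha := Ram2.aux_unit_add v one_ne_zero v.ord_one (by rw [Ram2.aux_ord_nat_mul v hc]; exact ha)
  neg ha := by
    have := Ram2.aux_charZero K F
    have ha0 : a ≠ 0 := ne_zero_of_ord_ne_zero v ha.ne
    have h0 : (c : F) * a ≠ 0 := mul_ne_zero (Nat.cast_ne_zero.mpr hc) ha0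
    have h1 : v.ord ((c : F) * a + 1) = v.ord ((c : F) * a) :=
      ord_add_eq_of_lt v h0 (by rw [Ram2.aux_ord_nat_mul v hc, v.ord_one]; exact ha)
    rw [Ram2.aux_ord_nat_mul v hc] at h1
    refine ⟨by rw [add_comm, h1]; simp, ?_⟩
    intro h3
    rw [add_comm, h3, v.ord_zero] at h1
    omega
  zero ha := by
    rcases eq_or_ne (1 + (c : F) * a) 0 with h | h
    · rw [h, v.ord_zero]
    have h1 := min_ord_le_ord_add v h
    rw [v.ord_one, Ram2.aux_ord_nat_mul v hc, ha, min_self] at h1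
    exact h1

/-- The order of `J` when `J * a ^ k = P`. -/
theorem Shape.ord_of_mul_pow {v : Place K F} {a P J : F} {D k : ℕ} (h : Shape v a P D)
    (ha0 : a ≠ 0) (H : J * a ^ k = P) :
    (0 < v.ord a → v.ord J = -(k * v.ord a)) ∧ (v.ord a < 0 → v.ord J = (D - k : ℤ) * v.ord a) ∧
      (v.ord a = 0 → 0 ≤ v.ord J) := by
  refine ⟨fun ha => ?_, fun ha => ?_, fun ha => ?_⟩
  · obtain ⟨h1, h2⟩ := h.pos ha
    have hJ : J ≠ 0 := by
      rintro rfl
      rw [zero_mul] at H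
      exact h2 H.symm
    have h3 := congrArg v.ord H
    rw [v.ord_mul hJ (pow_ne_zero k ha0), ord_pow, h1] at h3
    linarith
  · obtain ⟨h1, h2⟩ := h.neg ha
    have hJ : J ≠ 0 := by
      rintro rfl
      rw [zero_mul] at H
      exact h2 H.symm
    have h3 := congrArg v.ord H
    rw [v.ord_mul hJ (pow_ne_zero k ha0), ord_pow, h1] at h3
    linarith
  · rcases eq_or_ne J 0 with rfl | hJ
    · rw [v.ord_zero]
    have h3 := congrArg v.ord H
    rw [v.ord_mul hJ (pow_ne_zero k ha0), ord_pow, ha, mul_zero, add_zero] at h3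
    rw [h3]
    exact h.zero ha

/-- `a` behaves at `v` like the Hauptmodul `h_r` with respect to `J1 = j(τ)` and `Jr = j(rτ)`. -/
structure IsHaupt (r : ℕ) (v : Place K F) (a J1 Jr : F) : Prop where
  pos : 0 < v.ord a → v.ord J1 = -v.ord a ∧ v.ord Jr = -(r * v.ord a)
  neg : v.ord a < 0 → v.ord J1 = r * v.ord a ∧ v.ord Jr = v.ord a
  zero : v.ord a = 0 → 0 ≤ v.ord J1

theorem isHaupt_two [CharZero K] (v : Place K F) {a J1 J2 : F} (ha0 : a ≠ 0)
    (H1 : J1 * a = (1 + 256 * a) ^ 3) (H2 : J2 * a ^ 2 = (1 + 16 * a) ^ 3) :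
    IsHaupt 2 v a J1 J2 := by
  have s1 := ((shape_lin v a (c := 256) (by norm_num)).pow 3).ord_of_mul_pow (J := J1) (k := 1) ha0
    (by rw [pow_one]; exact_mod_cast H1)
  have s2 := ((shape_lin v a (c := 16) (by norm_num)).pow 3).ord_of_mul_pow (J := J2) (k := 2) ha0
    (by exact_mod_cast H2)
  refine ⟨fun h => ⟨?_, ?_⟩, fun h => ⟨?_, ?_⟩, s1.2.2⟩
  · rw [s1.1 h]; simp
  · rw [s2.1 h]
  · rw [s1.2.1 h]; norm_num
  · rw [s2.2.1 h]; norm_num

theorem isHaupt_three [CharZero K] (v : Place K F) {a J1 J3 : F} (ha0 : a ≠ 0)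
    (H1 : J1 * a = (1 + 27 * a) * (1 + 243 * a) ^ 3)
    (H2 : J3 * a ^ 3 = (1 + 27 * a) * (1 + 3 * a) ^ 3) :
    IsHaupt 3 v a J1 J3 := by
  have s1 := ((shape_lin v a (c := 27) (by norm_num)).mul
    ((shape_lin v a (c := 243) (by norm_num)).pow 3)).ord_of_mul_pow (J := J1) (k := 1) ha0
    (by rw [pow_one]; exact_mod_cast H1)
  have s2 := ((shape_lin v a (c := 27) (by norm_num)).mul
    ((shape_lin v a (c := 3) (by norm_num)).pow 3)).ord_of_mul_pow (J := J3) (k := 3) ha0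
    (by exact_mod_cast H2)
  refine ⟨fun h => ⟨?_, ?_⟩, fun h => ⟨?_, ?_⟩, s1.2.2⟩
  · rw [s1.1 h]; simp
  · rw [s2.1 h]
  · rw [s1.2.1 h]; norm_num
  · rw [s2.2.1 h]; norm_num

end Places

section Integers

/-- The arithmetic lemma for `x' = j`. -/
theorem arith_j {q N m : ℕ} {H j1 jq : ℤ} (hq : 0 < q) (hN : 0 < N) (hm : 0 < m)
    (hH : H ^ 2 ≤ (q : ℤ) ^ 2) (h1 : (m : ℤ) * j1 = -N) (h2 : (m : ℤ) * jq * q = -(N * H ^ 2)) :
    (q : ℤ) * j1 ≤ jq := by
  have hP : (0 : ℤ) < (m : ℤ) * q := by positivity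
  refine le_of_mul_le_mul_left ?_ hP
  have e1 : (m : ℤ) * q * (q * j1) = -(N * (q : ℤ) ^ 2) := by linear_combination (q : ℤ) ^ 2 * h1
  have e2 : (m : ℤ) * q * jq = -(N * H ^ 2) := by linear_combination h2
  rw [e1, e2]
  have : (N : ℤ) * H ^ 2 ≤ N * (q : ℤ) ^ 2 := mul_le_mul_of_nonneg_left hH (by positivity)
  linarith

/-- The arithmetic lemma for `x' = h_r`. -/
theorem arith_haupt {r q N m : ℕ} {G H α β j1 jr jq jrq : ℤ} (hr : 1 < r) (hq : 0 < q)
    (hN : 0 < N) (hm : 0 < m) (hH0 : H ≠ 0) (hH : H ^ 2 ≤ (q : ℤ) ^ 2)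
    (a_pos : 0 < α → j1 = -α ∧ jr = -(r * α)) (a_neg : α < 0 → j1 = r * α ∧ jr = α)
    (a_zero : α = 0 → 0 ≤ j1)
    (b_pos : 0 < β → jq = -β ∧ jrq = -(r * β)) (b_neg : β < 0 → jq = r * β ∧ jrq = β)
    (b_zero : β = 0 → 0 ≤ jq)
    (h1 : (m : ℤ) * j1 = -N) (h2 : (m : ℤ) * jr * r = -(N * G ^ 2))
    (h3 : (m : ℤ) * jq * q = -(N * H ^ 2)) (h4 : (m : ℤ) * jrq * (r * q) = -(N * (G * H) ^ 2)) :
    (0 ≤ α → 0 ≤ β) ∧ (α ≤ 0 → (q : ℤ) * α ≤ β) := by
  have hNz : (0 : ℤ) < N := by exact_mod_cast hN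
  have hmz : (0 : ℤ) < m := by exact_mod_cast hm
  have hqz : (0 : ℤ) < q := by exact_mod_cast hq
  have hrz : (1 : ℤ) < r := by exact_mod_cast hr
  have hH2 : 0 < H ^ 2 := by positivity
  have hj1 : j1 < 0 := by
    by_contra hcon
    push Not at hcon
    have : 0 ≤ (m : ℤ) * j1 := mul_nonneg hmz.le hcon
    omega
  have hjq : jq < 0 := by
    by_contra hcon
    push Not at hcon
    have : 0 ≤ (m : ℤ) * jq * q := mul_nonneg (mul_nonneg hmz.le hcon) hqz.le
    have : 0 < (N : ℤ) * H ^ 2 := mul_pos hNz hH2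
    omega
  have hα : α ≠ 0 := fun h => absurd (a_zero h) (not_le.mpr hj1)
  have hβ : β ≠ 0 := fun h => absurd (b_zero h) (not_le.mpr hjq)
  have hr2 : (r : ℤ) ^ 2 ≠ 1 := by nlinarith
  -- the four claims
  have cA : 0 < α → G ^ 2 = (r : ℤ) ^ 2 := by
    intro h
    obtain ⟨e1, e2⟩ := a_pos h
    have : (N : ℤ) * G ^ 2 = N * (r : ℤ) ^ 2 := by
      rw [e2] at h2
      rw [e1] at h1
      linear_combination h2 - (r : ℤ) ^ 2 * h1
    exact mul_left_cancel₀ hNz.ne' this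
  have cB : α < 0 → G ^ 2 = 1 := by
    intro h
    obtain ⟨e1, e2⟩ := a_neg h
    have : (N : ℤ) * G ^ 2 = N * 1 := by
      rw [e2] at h2
      rw [e1] at h1
      linear_combination h2 - h1
    exact mul_left_cancel₀ hNz.ne' this
  have cC : 0 < β → G ^ 2 = (r : ℤ) ^ 2 := by
    intro h
    obtain ⟨e1, e2⟩ := b_pos h
    have : (N : ℤ) * H ^ 2 * G ^ 2 = N * H ^ 2 * (r : ℤ) ^ 2 := by
      rw [e2] at h4
      rw [e1] at h3
      linear_combination h4 - (r : ℤ) ^ 2 * h3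
    exact mul_left_cancel₀ (mul_pos hNz hH2).ne' this
  have cD : β < 0 → G ^ 2 = 1 := by
    intro h
    obtain ⟨e1, e2⟩ := b_neg h
    have : (N : ℤ) * H ^ 2 * G ^ 2 = N * H ^ 2 * 1 := by
      rw [e2] at h4
      rw [e1] at h3
      linear_combination h4 - h3
    exact mul_left_cancel₀ (mul_pos hNz hH2).ne' this
  refine ⟨fun h => ?_, fun h => ?_⟩
  · have h' : 0 < α := lt_of_le_of_ne h (Ne.symm hα)
    by_contra hcon
    push Not at hcon
    exact hr2 ((cA h').symm.trans (cD hcon))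
  · have h' : α < 0 := lt_of_le_of_ne h hα
    have hb : β < 0 := by
      by_contra hcon
      push Not at hcon
      exact hr2 ((cC (lt_of_le_of_ne hcon (Ne.symm hβ))).symm.trans (cB h'))
    obtain ⟨e1, -⟩ := a_neg h'
    obtain ⟨e3, -⟩ := b_neg hb
    rw [e1] at h1
    rw [e3] at h3
    have hP : (0 : ℤ) < (m : ℤ) * r * q := by positivity
    refine le_of_mul_le_mul_left ?_ hP
    have f1 : (m : ℤ) * r * q * (q * α) = -(N * (q : ℤ) ^ 2) := by
      linear_combination (q : ℤ) ^ 2 * h1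
    have f2 : (m : ℤ) * r * q * β = -(N * H ^ 2) := by linear_combination h3
    rw [f1, f2]
    have : (N : ℤ) * H ^ 2 ≤ N * (q : ℤ) ^ 2 := mul_le_mul_of_nonneg_left hH hNz.le
    linarith

end Integers

end Fermat.Agent.S34.Nodal.Inst.Ord
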