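/-
C1 nodal core, instantiation, block K (helper284): the orders of the functions `j(dτ)`, `d ∣ N`, at
the cusps of `X₀(N)`.

Every place `v` of `FN N` with `ord_v j < 0` is of the form `f ↦ ord_t (γ • Ψ f)` (up to a positive
factor `m`), by the completeness theorem of S24, and `ord_t (j(d γ⁻¹ τ)) = - N gcd(d, c)² / d`.
-/
import Fermat.Agent.S24.Export.Ramification

set_option autoImplicit false

namespace Fermat.Agent.S34.Nodal.Inst.Ord

open AlgebraicCurve ModularCurve IntermediateField Fermat.Agent.S24 Fermat.Agent.S24.B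
  Fermat.Agent.S24.FF
open scoped MatrixGroups WithZero

variable {N : ℕ} [NeZero N]

/-- The order of the expansion of `j(d γ⁻¹ τ)`. -/
theorem order_texpL_smul_Psi_JF (γ : SL(2, ℤ)) (d : ℕ) [NeZero d] (hd : d ∣ N) :
    (texpL N (γ • Psi N (JF N d hd))).order * d =
      -((N : ℤ) * (Int.gcd d (γ⁻¹ 1 0) : ℤ) ^ 2) := by
  rw [Psi_JF, smul_algebraMap_AL, texpL_algebraMap]
  set δ : SL(2, ℤ) := γ⁻¹ with hδ
  set α : Matrix (Fin 2) (Fin 2) ℤ := !![(d : ℤ) * δ 0 0, (d : ℤ) * δ 0 1; δ 1 0, δ 1 1] with hα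
  have hdpos : (0 : ℤ) < d := by exact_mod_cast Nat.pos_of_ne_zero (NeZero.ne d)
  have hdet1 : δ 0 0 * δ 1 1 - δ 0 1 * δ 1 0 = 1 := by
    have := δ.2
    rwa [Matrix.det_fin_two] at this
  have hdet : α.det = d := by
    rw [hα, Matrix.det_fin_two_of]
    linear_combination (d : ℤ) * hdet1
  obtain ⟨s, hs, hord⟩ := exists_hasTExp_gen (N := N) (dilMat d * (δ : GL (Fin 2) ℝ)) α
    (by rw [hdet]; exact hdpos) (by rw [hdet]; exact Int.natCast_dvd_natCast.mpr hd) (by
      rw [Units.val_mul, hα]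
      ext i j
      fin_cases i <;> fin_cases j <;>
        simp [dilMat, Matrix.mul_apply, Fin.sum_univ_two])
  have h1 : texp N (γ • jd N d hd) = s := by
    apply texp_eq
    have : (γ • jd N d hd).1 = fun τ => jfun ((dilMat d * (δ : GL (Fin 2) ℝ)) • τ) := by
      funext τ
      rw [smul_AL_apply, mul_smul]
      rfl
    rw [this]
    exact hs
  rw [hdet] at hord
  rw [h1, hord]
  have hcop : IsCoprime (δ 0 0) (δ 1 0) := ⟨δ 1 1, -δ 0 1, by linarith⟩
  have hg : Int.gcd (α 0 0) (α 1 0) = Int.gcd d (δ 1 0) := by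
    show Int.gcd ((d : ℤ) * δ 0 0) (δ 1 0) = _
    rw [mul_comm]
    exact Int.gcd_mul_right_left_of_gcd_eq_one (Int.isCoprime_iff_gcd_eq_one.mp hcop)
  rw [hg]

/-- The point datum of the cusp `∞`, with its explicit valuation. -/
theorem isPointDatum_infty :
    IsPointDatum (Psi N) (jF N)⁻¹ ((lval Kbar).comap (texpL N).toRingHom) ModularGroup.T N := by
  refine isPointDatum_of_expansion (C := Kbar) (Psi N) _ ModularGroup.T N
    (Nat.pos_of_ne_zero (NeZero.ne N)) (texpL N).toRingHom ?_ (zetaK N)⁻¹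
    (isPrimitiveRoot_zetaK N).inv texpL_T_smul ?_
  · intro a
    show texpL N (algebraMap Kbar (LN N) a) = _
    rw [AlgHom.commutes, ModularCurve.algebraMap_laurentSeries_eq_single]
    rfl
  · show (texpL N (Psi N (jF N)⁻¹)).order = _
    rw [texpL_Psi, map_inv₀]
    have h1 : phi1 N (jF N) = ModularCurve.qExpand Kbar N (Jser 1) := rfl
    have h2 : ModularCurve.qExpand Kbar N (Jser 1) ≠ 0 := fun h =>
      Jser_one_ne_zero (ModularCurve.qExpand_injective (R := Kbar) (N := N) (by rw [h, map_zero]))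
    have h3 : (ModularCurve.qExpand Kbar N (Jser 1))⁻¹ ≠ 0 := inv_ne_zero h2
    have h4 := HahnSeries.order_mul h2 h3
    rw [mul_inv_cancel₀ h2, HahnSeries.order_one, order_qExpand, order_Jser_one] at h4
    rw [h1]
    linarith

theorem JF_ne_zero (d : ℕ) [NeZero d] (hd : d ∣ N) : JF N d hd ≠ 0 := by
  intro h
  have h1 := order_texpL_smul_Psi_JF (N := N) 1 d hd
  rw [h, map_zero, smul_zero, map_zero, HahnSeries.order_zero, zero_mul] at h1
  have hN : (0 : ℤ) < N := by exact_mod_cast Nat.pos_of_ne_zero (NeZero.ne N)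
  have hg : (0 : ℤ) < (Int.gcd d ((1 : SL(2, ℤ))⁻¹ 1 0) : ℤ) := by
    have : 0 < Int.gcd d ((1 : SL(2, ℤ))⁻¹ 1 0) :=
      Int.gcd_pos_of_ne_zero_left _ (by exact_mod_cast NeZero.ne d)
    exact_mod_cast this
  have : 0 < (N : ℤ) * (Int.gcd d ((1 : SL(2, ℤ))⁻¹ 1 0) : ℤ) ^ 2 := by positivity
  omega


theorem exists_ord_JF_of_neg (v : Place Kbar (FN N)) (hv : v.ord (jF N) < 0) :
    ∃ (m : ℕ) (c : ℤ), 0 < m ∧ ∀ (d : ℕ) [NeZero d] (hd : d ∣ N),
      (m : ℤ) * v.ord (JF N d hd) * d = -((N : ℤ) * (Int.gcd d c : ℤ) ^ 2) := by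
  have := Export.finiteDimensional N
  have hP := isPointDatum_infty (N := N)
  have hU : IsUniformization (jF N) (CongruenceSubgroup.Gamma0 N) (Psi N) := isUniformization
  have hy : Kbar⟮(jF N)⁻¹⟯ = Kbar⟮jF N⟯ := Export.adjoin_inv _
  obtain ⟨q, hq⟩ := CL.exists_conjPlace_eq (Formal.transcendental_jF N) hU
    hy hP v (by rw [Place.ord_inv]; omega)
  obtain ⟨m, hm, h⟩ := CL.exists_mul_ord_conjPlace hU hy hP q
  rw [hq] at h
  obtain ⟨γ, rfl⟩ := QuotientGroup.mk_surjective q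
  refine ⟨m, γ⁻¹ 1 0, hm, fun d _ hd => ?_⟩
  have h1 := h (JF N d hd) (JF_ne_zero d hd)
  have hne : texpL N (γ • Psi N (JF N d hd)) ≠ 0 := by
    intro h0
    have h2 : γ • Psi N (JF N d hd) = 0 := texpL_injective (by rw [map_zero]; exact h0)
    rw [smul_eq_zero_iff_eq] at h2
    exact JF_ne_zero d hd ((Psi N).toRingHom.injective (by rw [map_zero]; exact h2))
  have h2 : ((lval Kbar).comap (texpL N).toRingHom) (CL.conj hU (γ : _ ⧸ _)
      (JF N d hd)) = WithZero.exp (-(texpL N (γ • Psi N (JF N d hd))).order) := by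
    rw [CL.conj_mk, Valuation.comap_apply]
    exact lval_of_ne_zero hne
  have h5 : (WithZero.exp (-(texpL N (γ • Psi N (JF N d hd))).order) : ℤᵐ⁰) =
      WithZero.exp (-((m : ℤ) * v.ord (JF N d hd))) := h2.symm.trans h1
  rw [WithZero.exp_inj] at h5
  have h3 := order_texpL_smul_Psi_JF (N := N) γ d hd
  have h4 : (texpL N (γ • Psi N (JF N d hd))).order = (m : ℤ) * v.ord (JF N d hd) :=
    neg_injective h5
  rw [← h4, h3]

end Fermat.Agent.S34.Nodal.Inst.Ord
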