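/-
C1 nodal core, instantiation, block K (helper284): the functions `j(dτ)`, `d ∣ N`, are integral over
`ℚ̄[j]` (they are holomorphic on the upper half plane).
-/
import Fermat.Agent.Lib.EtaUnit.Mem.Integral
import Fermat.Agent.S24.CL.Squeeze

set_option autoImplicit false

namespace Fermat.Agent.S34.Nodal.Inst.Ord

open AlgebraicCurve ModularCurve IntermediateField Fermat.Agent.S24 Fermat.Agent.S24.B
  Fermat.Agent.S24.FF
open scoped MatrixGroups

variable {N : ℕ} [NeZero N]

theorem isIntegral_JF (d : ℕ) [NeZero d] (hd : d ∣ N) :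
    IsIntegral (Algebra.adjoin Kbar {jF N}) (JF N d hd) := by
  refine Lib.EtaUnit.isIntegral_of_tex_eq (Lib.EtaUnit.inclAL N (jd N d hd)) ?_ _ ?_
  · intro γ hγ
    rw [Lib.EtaUnit.smul_inclAL, smul_jd_of_mem_Gamma0 γ hγ]
  · rw [Psi_JF, texpL_algebraMap, Lib.EtaUnit.tex_inclAL]

/-- An element which is integral over `K[x]` is regular wherever `x` is. -/
theorem ord_nonneg_of_isIntegral {K F : Type*} [Field K] [Field F] [Algebra K F] {x y : F}
    (hy : IsIntegral (Algebra.adjoin K {x}) y) (v : Place K F) (hv : 0 ≤ v.ord x) :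
    0 ≤ v.ord y := by
  apply ord_nonneg_of_mem
  have hle : ∀ a ∈ Algebra.adjoin K {x}, a ∈ v.toValuationSubring := by
    intro a ha
    induction ha using Algebra.adjoin_induction with
    | mem a ha =>
      rw [Set.mem_singleton_iff] at ha
      rw [ha]
      exact mem_of_ord_nonneg v hv
    | algebraMap c => exact mem_of_ord_nonneg v (by rw [ord_algebraMap])
    | add a b _ _ ha hb => exact add_mem ha hb
    | mul a b _ _ ha hb => exact mul_mem ha hb
  obtain ⟨p, hp, hpy⟩ := hy
  have h1 : IsIntegral v.toValuationSubring y := by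
    refine ⟨p.map (Subring.inclusion (S := (Algebra.adjoin K {x}).toSubring)
      (T := v.toValuationSubring.toSubring) hle), hp.map _, ?_⟩
    rw [Polynomial.eval₂_map]
    exact hpy
  obtain ⟨z, hz⟩ := IsIntegrallyClosed.isIntegral_iff.mp h1
  rw [← hz]
  exact z.2

theorem ord_JF_nonneg (d : ℕ) [NeZero d] (hd : d ∣ N) (v : Place Kbar (FN N))
    (hv : 0 ≤ v.ord (jF N)) : 0 ≤ v.ord (JF N d hd) :=
  ord_nonneg_of_isIntegral (isIntegral_JF d hd) v hv

end Fermat.Agent.S34.Nodal.Inst.Ord
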