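/-
C1 nodal core, instantiation, block K (helper284): the bases `j`, `h₂`, `h₃` satisfy `BaseOK`:
`β x'` is integral over `ℚ̄[α x']` and `β x' / (α x') ^ q` is integral over `ℚ̄[1 / α x']`.
-/
import Fermat.Agent.S34.Nodal.Inst.K.Ord.Cusp
import Fermat.Agent.S34.Nodal.Inst.K.Ord.Finite
import Fermat.Agent.S34.Nodal.Inst.K.Ord.Arith
import Fermat.Agent.S34.Nodal.Inst.G.Mod.Defs
import Fermat.Agent.S18.Places.Dedekind
import Fermat.Agent.S18.Base.Bases

set_option autoImplicit false

namespace Fermat.Agent.S34.Nodal.Inst.Ord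

open AlgebraicCurve ModularCurve IntermediateField Fermat.Agent.S24 Fermat.Agent.S24.B
  Fermat.Agent.S24.FF Fermat.Agent.Lib.Hauptmodul

section Criterion

variable {N : ℕ} [NeZero N]

/-- Integrality over `ℚ̄[x]` in terms of places. -/
theorem isIntegral_iff_places {x : FN N} (hx : Transcendental Kbar x) (z : FN N) :
    IsIntegral (Algebra.adjoin Kbar {x}) z ↔
      ∀ v : Place Kbar (FN N), 0 ≤ v.ord x → 0 ≤ v.ord z := by
  have := Export.isFF1 N
  have : FiniteDimensional Kbar⟮x⟯ (FN N) := IsFF1.finite _ hx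
  rw [← S18.mem_chart_top_iff_isIntegral, S18.mem_chart_top_iff_places hx]

end Criterion

section Gcd

theorem gcd_sq_le (q : ℕ) (hq : 0 < q) (c : ℤ) : ((Int.gcd q c : ℕ) : ℤ) ^ 2 ≤ (q : ℤ) ^ 2 := by
  have h1 : ((Int.gcd q c : ℕ) : ℤ) ≤ q :=
    Int.le_of_dvd (by exact_mod_cast hq) (Int.gcd_dvd_left _ _)
  exact pow_le_pow_left₀ (by positivity) h1 2

theorem gcd_ne_zero' (q : ℕ) (hq : 0 < q) (c : ℤ) : ((Int.gcd q c : ℕ) : ℤ) ≠ 0 := by
  have : 0 < Int.gcd q c := Int.gcd_pos_of_ne_zero_left _ (by exact_mod_cast hq.ne')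
  exact_mod_cast this.ne'

theorem gcd_mul_of_coprime {r q : ℕ} (h : Nat.Coprime r q) (c : ℤ) :
    Int.gcd ((r * q : ℕ) : ℤ) c = Int.gcd r c * Int.gcd q c := by
  simp only [Int.gcd_def, Int.natAbs_natCast]
  rw [Nat.gcd_comm, Nat.Coprime.gcd_mul _ h, Nat.gcd_comm, Nat.gcd_comm c.natAbs q]

end Gcd

variable {M q : ℕ} [NeZero M] [NeZero q]

local notation "al" => heckeAlphaBar Kbar M q
local notation "be" => heckeBetaBar Kbar M q

/-- `BaseOK` from the comparison of the orders at all places. -/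
theorem baseOK_of_ord {x' : FN M} (htr : Transcendental Kbar x')
    (h : ∀ v : Place Kbar (FN (M * q)), (0 ≤ v.ord (al x') → 0 ≤ v.ord (be x')) ∧
      (v.ord (al x') ≤ 0 → (q : ℤ) * v.ord (al x') ≤ v.ord (be x')))
    (ser : ∃ X : LaurentSeries ℤ, (x' : LaurentSeries Kbar) = coeffMap (Int.castRingHom Kbar) X ∧
      coeffMap (Int.castRingHom (ZMod q)) X ≠ 0) : BaseOK M q x' := by
  have hx0 : x' ≠ 0 := by
    rintro rfl
    exact htr isAlgebraic_zero
  have ha : Transcendental Kbar (al x') := by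
    intro hcon
    exact htr ((isAlgebraic_algHom_iff (al) (al).toRingHom.injective).mp hcon)
  have ha0 : al x' ≠ 0 := by
    intro h0
    rw [h0] at ha
    exact ha isAlgebraic_zero
  have hb0 : be x' ≠ 0 := (map_ne_zero_iff _ (be).toRingHom.injective).mpr hx0
  have hai : Transcendental Kbar (al x')⁻¹ := by
    intro hcon
    apply ha
    have := hcon.inv
    rwa [inv_inv] at this
  refine ⟨hx0, (isIntegral_iff_places ha _).mpr fun v hv => (h v).1 hv,
    (isIntegral_iff_places hai _).mpr fun v hv => ?_, ser⟩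
  rw [Place.ord_inv] at hv
  rw [div_eq_mul_inv, v.ord_mul hb0 (inv_ne_zero (pow_ne_zero q ha0)), Place.ord_inv, ord_pow]
  have := (h v).2 (by omega)
  omega

/-- The base `j`. -/
theorem baseOK_j (hq : q.Prime) : BaseOK M q (jF M) := by
  have hqpos : 0 < q := hq.pos
  have hNpos : 0 < M * q := Nat.pos_of_ne_zero (NeZero.ne _)
  refine baseOK_of_ord (Formal.transcendental_jF M) (fun v => ?_) ?_
  · have e1 : al (jF M) = jF (M * q) := S34.alpha_JF M q 1 (one_dvd M)
    have e2 : be (jF M) = JF (M * q) (1 * q) (Nat.mul_dvd_mul_right (one_dvd M) q) :=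
      S34.beta_JF M q 1 (one_dvd M)
    rw [e1, e2]
    refine ⟨fun hv => ord_JF_nonneg _ _ v hv, fun hv => ?_⟩
    rcases hv.lt_or_eq with hv | hv
    · obtain ⟨m, c, hm, hmc⟩ := exists_ord_JF_of_neg v hv
      have h1 : (m : ℤ) * v.ord (jF (M * q)) * ((1 : ℕ) : ℤ) =
          -(((M * q : ℕ) : ℤ) * (Int.gcd ((1 : ℕ) : ℤ) c : ℤ) ^ 2) := hmc 1 (one_dvd _)
      have h2 := hmc (1 * q) (Nat.mul_dvd_mul_right (one_dvd M) q)
      refine arith_j (N := M * q) (m := m) (H := (Int.gcd ((1 * q : ℕ) : ℤ) c : ℤ)) hqpos hNpos hm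
        ?_ ?_ ?_
      · rw [one_mul]; exact gcd_sq_le q hqpos c
      · have : (Int.gcd ((1 : ℕ) : ℤ) c : ℤ) = 1 := by simp
        rw [this] at h1
        simpa using h1
      · rw [← h2]
        push_cast
        ring
    · rw [hv, mul_zero]
      exact ord_JF_nonneg _ _ v hv.ge
  · refine ⟨S18.Base.mkX (-1) jNum, ?_, ?_⟩
    · rw [Bar.coe_jF, ← S18.Base.coeffMap_mkX_jNum]
      ext k
      rw [coeffEmb_coeff, coeffMap_coeff, coeffMap_coeff]
      simp
    · intro h0
      have h1 := congrArg (fun s => HahnSeries.coeff s (-1)) h0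
      simp only [coeffMap_coeff, S18.Base.coeff_mkX_self (-1) jNum constantCoeff_jNum] at h1
      have : Fact (1 < q) := ⟨hq.one_lt⟩
      simp at h1

/-- The bases `h_r`, abstractly. -/
theorem baseOK_haupt {r : ℕ} [NeZero r] (hr : 1 < r) (hrM : r ∣ M) (hq : q.Prime)
    (hrq : Nat.Coprime r q) {x' : FN M} (htr : Transcendental Kbar x')
    (hH : ∀ v : Place Kbar (FN (M * q)),
      IsHaupt r v (al x') (jF (M * q)) (JF (M * q) r (hrM.mul_right q)) ∧
      IsHaupt r v (be x') (JF (M * q) (1 * q) (Nat.mul_dvd_mul_right (one_dvd M) q))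
        (JF (M * q) (r * q) (Nat.mul_dvd_mul_right hrM q)))
    (ser : ∃ X : LaurentSeries ℤ, (x' : LaurentSeries Kbar) = coeffMap (Int.castRingHom Kbar) X ∧
      coeffMap (Int.castRingHom (ZMod q)) X ≠ 0) : BaseOK M q x' := by
  have hqpos : 0 < q := hq.pos
  have hNpos : 0 < M * q := Nat.pos_of_ne_zero (NeZero.ne _)
  have hrz : (1 : ℤ) < r := by exact_mod_cast hr
  refine baseOK_of_ord htr (fun v => ?_) ser
  obtain ⟨Ha, Hb⟩ := hH v
  rcases lt_or_ge (v.ord (jF (M * q))) 0 with hv | hv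
  · obtain ⟨m, c, hm, hmc⟩ := exists_ord_JF_of_neg v hv
    have h1 : (m : ℤ) * v.ord (jF (M * q)) * ((1 : ℕ) : ℤ) =
        -(((M * q : ℕ) : ℤ) * (Int.gcd ((1 : ℕ) : ℤ) c : ℤ) ^ 2) := hmc 1 (one_dvd _)
    have h2 := hmc r (hrM.mul_right q)
    have h3 := hmc (1 * q) (Nat.mul_dvd_mul_right (one_dvd M) q)
    have h4 := hmc (r * q) (Nat.mul_dvd_mul_right hrM q)
    refine arith_haupt (r := r) (q := q) (N := M * q) (m := m) (G := (Int.gcd (r : ℤ) c : ℤ))
      (H := (Int.gcd (q : ℤ) c : ℤ)) hr hqpos hNpos hm (gcd_ne_zero' q hqpos c)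
      (gcd_sq_le q hqpos c) Ha.pos Ha.neg Ha.zero Hb.pos Hb.neg Hb.zero ?_ h2 ?_ ?_
    · have : (Int.gcd ((1 : ℕ) : ℤ) c : ℤ) = 1 := by simp
      rw [this] at h1
      simpa using h1
    · have e : ((1 * q : ℕ) : ℤ) = (q : ℤ) := by rw [one_mul]
      rw [e] at h3
      exact h3
    · rw [gcd_mul_of_coprime hrq] at h4
      rw [← Nat.cast_mul (Int.gcd (r : ℤ) c), ← h4]
      push_cast
      ring
  · have hα : v.ord (al x') = 0 := by
      rcases lt_trichotomy (v.ord (al x')) 0 with h | h | h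
      · have := (Ha.neg h).1
        nlinarith
      · exact h
      · have := (Ha.pos h).1
        omega
    have hvq := ord_JF_nonneg (1 * q) (Nat.mul_dvd_mul_right (one_dvd M) q) v hv
    have hβ : v.ord (be x') = 0 := by
      rcases lt_trichotomy (v.ord (be x')) 0 with h | h | h
      · have := (Hb.neg h).1
        nlinarith
      · exact h
      · have := (Hb.pos h).1
        omega
    rw [hα, hβ]
    simp

omit [NeZero M] [NeZero q] in
theorem ser_toL (hq : q.Prime) {x' : FN M} {u : PowerSeries ℤ}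
    (hu : PowerSeries.constantCoeff u = 1)
    (hx : (x' : LaurentSeries Kbar) = toL Kbar (PowerSeries.X * u)) :
    ∃ X : LaurentSeries ℤ, (x' : LaurentSeries Kbar) = coeffMap (Int.castRingHom Kbar) X ∧
      coeffMap (Int.castRingHom (ZMod q)) X ≠ 0 := by
  refine ⟨toL ℤ (PowerSeries.X * u), by rw [hx, coeffMap_toL], ?_⟩
  rw [coeffMap_toL]
  intro h0
  have h1 := congrArg (fun s => HahnSeries.coeff s ((1 : ℕ) : ℤ)) h0
  simp only [toL_coeff_natCast, HahnSeries.coeff_zero] at h1
  have h2 : PowerSeries.coeff 1 (PowerSeries.X * u) = 1 := by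
    rw [show (1 : ℕ) = 0 + 1 from rfl, PowerSeries.coeff_succ_X_mul,
      PowerSeries.coeff_zero_eq_constantCoeff_apply, hu]
  rw [h2] at h1
  have : Fact (1 < q) := ⟨hq.one_lt⟩
  simp at h1

/-- The base `h₂`. -/
theorem baseOK_h2 (hq : q.Prime) (h2 : 2 ∣ M) (hq2 : q ≠ 2) : BaseOK M q (h2F M h2) := by
  have hx0 : h2F M h2 ≠ 0 := by
    intro h
    have := transcendental_h2F M h2
    rw [h] at this
    exact this isAlgebraic_zero
  refine baseOK_haupt (r := 2) (by norm_num) h2 hq
    ((Nat.coprime_primes Nat.prime_two hq).mpr hq2.symm) (transcendental_h2F M h2) (fun v => ⟨?_, ?_⟩)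
    (ser_toL hq constantCoeff_u2Z (coe_h2F M h2))
  · refine isHaupt_two v ((map_ne_zero_iff _ (al).toRingHom.injective).mpr hx0) ?_ ?_
    · have := congrArg (al) (jF_mul_h2F M h2)
      simp only [map_mul, map_pow, map_add, map_one, map_ofNat] at this
      rw [← this]
      rfl
    · have := congrArg (al) (JF_two_mul_h2F M h2)
      simp only [map_mul, map_pow, map_add, map_one, map_ofNat] at this
      rw [← this, S34.alpha_JF M q 2 h2]
  · refine isHaupt_two v ((map_ne_zero_iff _ (be).toRingHom.injective).mpr hx0) ?_ ?_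
    · have := congrArg (be) (jF_mul_h2F M h2)
      simp only [map_mul, map_pow, map_add, map_one, map_ofNat] at this
      rw [← this]
      congr 1
      exact (S34.beta_JF M q 1 (one_dvd M)).symm
    · have := congrArg (be) (JF_two_mul_h2F M h2)
      simp only [map_mul, map_pow, map_add, map_one, map_ofNat] at this
      rw [← this, S34.beta_JF M q 2 h2]

/-- The base `h₃`. -/
theorem baseOK_h3 (hq : q.Prime) (h3 : 3 ∣ M) (hq3 : q ≠ 3) : BaseOK M q (h3F M h3) := by
  have hx0 : h3F M h3 ≠ 0 := by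
    intro h
    have := transcendental_h3F M h3
    rw [h] at this
    exact this isAlgebraic_zero
  refine baseOK_haupt (r := 3) (by norm_num) h3 hq
    ((Nat.coprime_primes Nat.prime_three hq).mpr hq3.symm) (transcendental_h3F M h3)
    (fun v => ⟨?_, ?_⟩) (ser_toL hq constantCoeff_u3Z (coe_h3F M h3))
  · refine isHaupt_three v ((map_ne_zero_iff _ (al).toRingHom.injective).mpr hx0) ?_ ?_
    · have := congrArg (al) (jF_mul_h3F M h3)
      simp only [map_mul, map_pow, map_add, map_one, map_ofNat] at this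
      rw [← this]
      rfl
    · have := congrArg (al) (JF_three_mul_h3F M h3)
      simp only [map_mul, map_pow, map_add, map_one, map_ofNat] at this
      rw [← this, S34.alpha_JF M q 3 h3]
  · refine isHaupt_three v ((map_ne_zero_iff _ (be).toRingHom.injective).mpr hx0) ?_ ?_
    · have := congrArg (be) (jF_mul_h3F M h3)
      simp only [map_mul, map_pow, map_add, map_one, map_ofNat] at this
      rw [← this]
      congr 1
      exact (S34.beta_JF M q 1 (one_dvd M)).symm
    · have := congrArg (be) (JF_three_mul_h3F M h3)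
      simp only [map_mul, map_pow, map_add, map_one, map_ofNat] at this
      rw [← this, S34.beta_JF M q 3 h3]

end Fermat.Agent.S34.Nodal.Inst.Ord
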